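import Mathlib
import Fermat.Agent.G.FF.Class
import Fermat.Agent.G.FF.Abs

/-!
# Program DS, package (C), row C5, sub-package FF (helper28) : ABSTRACT part

The `Γ₀`-package `G/FF` is almost entirely generic in a pair of degeneracy maps
`φ ψ : F →ₐ[K] F'`; the only level-specific facts it uses are that `j` is a separating
transcendental generator of the two function fields.  This file isolates the generic statements,
so that the `Γ₁(M)`-instance (`FF/Main.lean`) is a three-line wrapper and does not depend on how
the row C0 finally names its degeneracy maps.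

* `dscff_isSepGen_map`   : `φ t` is a separating generator of `F'` as soon as some separating
  generator of `F'` exists and `t` is transcendental;
* `dscff_inputs`         : ALL six inputs of `Pic0.correspondence φ ψ` (integrality of `φ`, `ψ`,
  principal divisors on `F'`, finiteness of `ψ`, fundamental identity along `φ`, norm formula
  along `ψ`) from two separating generators `t`, `ψ t`;
* `dscffNorm ψ`          : the norm `F' →* F` along `ψ`;
* `dscff_class`          : HECKE ON CLASSES = NORM ON FUNCTIONS for `Pic0.correspondence φ ψ`: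
  `n D = div f ⟹ ψ_* φ^* [D] = [E]`, `n E = div (N_ψ (φ f))`;
* `dscff_norm_const`     : `N_ψ (φ c) = c ^ deg ψ` for constants (so its divisor is `0`).
-/

set_option autoImplicit false
set_option linter.unusedSectionVars false
set_option linter.unusedVariables false
set_option linter.style.haveILetI false

noncomputable section

namespace Fermat.Agent.DS

open ModularCurve AlgebraicCurve IntermediateField Fermat.Agent.S24 Fermat.Agent.G

section Abstract

variable {K F F' : Type*} [Field K] [Field F] [Field F'] [Algebra K F] [Algebra K F']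

/-- the image of a transcendental element under a `K`-embedding into a function field with a
separating generator is a separating generator. -/
theorem dscff_isSepGen_map [CharZero K] (φ : F →ₐ[K] F') {t : F} (ht : Transcendental K t)
    {t' : F'} (ht' : IsSepGen K t') : IsSepGen K (φ t) :=
  ht'.of_transcendental fun h => ht ((isAlgebraic_algHom_iff φ φ.injective).mp h)

/-- ALL the inputs of the correspondence `ψ_* φ^*` on `Pic⁰`, from separating generators. -/
theorem dscff_inputs [IsAlgClosed K] [CharZero K] (φ ψ : F →ₐ[K] F') (t : F)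
    (ht : IsSepGen K t) (ht' : IsSepGen K (ψ t)) :
    ∃ (hφ : φ.toRingHom.IsIntegral) (hψ : ψ.toRingHom.IsIntegral)
      (_ : HasPrincipalDivisors K F') (hfin : FiniteAlong K ψ),
      FundamentalIdentityAlong K φ hφ ∧ NormFormulaAlong K ψ hfin := by
  have hfinψ : FiniteAlong K ψ := by
    haveI := ht'.finite
    exact gff_finite_along ψ t (ψ t) rfl
  have htφ : IsSepGen K (φ t) := dscff_isSepGen_map φ ht.transcendental ht'
  have hfinφ : FiniteAlong K φ := by
    haveI := htφ.finite
    exact gff_finite_along φ t (φ t) rfl
  have hφ := gff_integral_of_finite φ hfinφ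
  have hψ := gff_integral_of_finite ψ hfinψ
  have hP : HasPrincipalDivisors K F' := ht'.hasPrincipalDivisors
  exact ⟨hφ, hψ, hP, hfinψ, gffa_along_fundamentalIdentity φ hfinφ hφ ht,
    gffa_along_normFormula ψ hfinψ ht⟩

/-- the norm `F' →* F` along `ψ`. -/
def dscffNorm (ψ : F →ₐ[K] F') : F' →* F :=
  letI := algebraAlong ψ
  Algebra.norm F

/-- HECKE ON CLASSES = NORM ON FUNCTIONS, for an arbitrary correspondence `ψ_* φ^*`. -/
theorem dscff_class [HasPrincipalDivisors K F'] (φ ψ : F →ₐ[K] F')
    (hφ : φ.toRingHom.IsIntegral) (hψ : ψ.toRingHom.IsIntegral)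
    (hFI : FundamentalIdentityAlong K φ hφ) (hfin : FiniteAlong K ψ)
    (hN : NormFormulaAlong K ψ hfin)
    (D : Divisor.degZero (K := K) (F := F)) (n : ℕ) (f : F) (hf : f ≠ 0)
    (hD : ∀ P : Place K F, (n : ℤ) * (D : Divisor K F) P = P.ord f) :
    ∃ E : Divisor.degZero (K := K) (F := F),
      Pic0.correspondence φ ψ hφ hψ hFI hfin hN (Pic0.mk D) = Pic0.mk E ∧
      dscffNorm ψ (φ f) ≠ 0 ∧
      ∀ P : Place K F, (n : ℤ) * (E : Divisor K F) P = P.ord (dscffNorm ψ (φ f)) := by
  refine ⟨Pic0.degZeroCorrespondence φ ψ hφ hψ hFI D, rfl, ?_, fun P => ?_⟩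
  · exact gff_norm_ne_zero ψ hfin _ ((map_ne_zero φ).mpr hf)
  · rw [Pic0.coe_degZeroCorrespondence]
    exact gff_correspondence_ord φ ψ hφ hψ hfin hN (D : Divisor K F) n f hf hD P

/-- the norm of a constant is a constant. -/
theorem dscff_norm_const (φ ψ : F →ₐ[K] F') (c : K) :
    dscffNorm ψ (φ (algebraMap K F c)) =
      (algebraMap K F c) ^ (letI := algebraAlong ψ; Module.finrank F F') := by
  letI := algebraAlong ψ
  haveI := isScalarTower_along ψ
  have h1 : φ (algebraMap K F c) = algebraMap K F' c := φ.commutes c
  show Algebra.norm F (φ (algebraMap K F c)) = _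
  rw [h1, IsScalarTower.algebraMap_apply K F F' c]
  exact Algebra.norm_algebraMap (algebraMap K F c)

/-- the divisor of the norm of a constant is zero. -/
theorem dscff_ord_norm_const (φ ψ : F →ₐ[K] F') (c : K) (P : Place K F) :
    P.ord (dscffNorm ψ (φ (algebraMap K F c))) = 0 := by
  rw [dscff_norm_const, ← zpow_natCast, P.ord_zpow, PlaceOrd.ord_algebraMap, mul_zero]

end Abstract

end Fermat.Agent.DS
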