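import Mathlib
import Fermat.Agent.DS.C.Galois
import Fermat.Agent.DS.C.HeckeFun
import Fermat.Agent.DS.C.FF.Abs

/-!
# Program DS, package (C), row C5, sub-package FF (helper28) : TOP STATEMENTS on the C0 vocabulary
(`Γ₁(M)`-port of `G/FF/Main.lean`; `dscAlphaBar`, `dscBetaBar`, `DscHeckeInputsAlong`,
`dscHeckeBar`, `dscJBar` are helper29's C0 definitions, `dscHeckeFun` is `DS/C/HeckeFun.lean`)

* `dscff_heckeInputs`     : (FF1) `DscHeckeInputsAlong ℚ̄ M P p`, i.e. the operator
  `dscHeckeAlong ℚ̄ M P p = α_* β^*` is honest, GIVEN that `j` is a separating generator of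
  `dscFieldBar M P` and of `dscFieldBar M (P * p)` (exports of rows C1c/C2; explicit hypotheses
  here, so this file has no stub);
* `dscff_heckeInputs_one` : the same at `P = 1` with the upper level written `(M, p)`;
* `dscff_heckeInputsTr`   : the same for the transposed correspondence `β_* α^*`;
* `dscff_hecke_class`     : (FF2) HECKE ON CLASSES = NORM ON FUNCTIONS:
  `n D = div f ⟹ dscHeckeBar M p [D] = [E]`, `n E = div (dscHeckeFun M 1 p f)`;
* `dscff_hecke_const_ord` : `div (dscHeckeFun M 1 p c) = 0` for constants `c`.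
-/

set_option autoImplicit false
set_option linter.unusedSectionVars false
set_option linter.unusedVariables false
set_option linter.style.haveILetI false
set_option synthInstance.maxHeartbeats 400000

noncomputable section

namespace Fermat.Agent.DS

open ModularCurve AlgebraicCurve IntermediateField Fermat.Agent.S24 Fermat.Agent.G

local notation "Qb" => AlgebraicClosure ℚ

theorem dscff_alpha_J (M P p : ℕ) [NeZero p] :
    dscAlphaBar Qb M P p (dscJBar Qb M P) = dscJBar Qb M (P * p) :=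
  Subtype.ext rfl

/-- (FF1) THE HECKE CORRESPONDENCE `α_* β^*` OF LEVEL `(M, P)` AT `p` IS HONEST, given the two
separating generators. -/
theorem dscff_heckeInputs (M P p : ℕ) [NeZero p]
    (h1 : IsSepGen Qb (dscJBar Qb M P)) (hp : IsSepGen Qb (dscJBar Qb M (P * p))) :
    DscHeckeInputsAlong Qb M P p := by
  obtain ⟨hβ, hα, hP, hfin, hFI, hN⟩ :=
    dscff_inputs (dscBetaBar Qb M P p) (dscAlphaBar Qb M P p) (dscJBar Qb M P) h1
      (by rw [dscff_alpha_J]; exact hp)
  exact ⟨hα, hβ, hP, hfin, hFI, hN⟩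

/-- (FF1) at level `(M, 1)`, with the level of the correspondence written `(M, p)` (and not
`(M, 1 * p)`) : the form in which rows C1c/C2 deliver the separating generators. -/
theorem dscff_heckeInputs_one (M p : ℕ) [NeZero p]
    (h1 : IsSepGen Qb (dscJBar Qb M 1)) (hp : IsSepGen Qb (dscJBar Qb M p)) :
    DscHeckeInputsAlong Qb M 1 p := by
  refine dscff_heckeInputs M 1 p h1 ?_
  have h : ∀ P : ℕ, P = p → IsSepGen Qb (dscJBar Qb M P) := by
    rintro P rfl
    exact hp
  exact h _ (one_mul p)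

/-- the inputs of the TRANSPOSED correspondence `β_* α^*` (the condition inside
`dscHeckeAlongTr`), given the two separating generators. -/
theorem dscff_heckeInputsTr (M P p : ℕ) [NeZero p]
    (h1 : IsSepGen Qb (dscJBar Qb M P)) (hp : IsSepGen Qb (dscJBar Qb M (P * p))) :
    ∃ (hα : DscAlphaBarIntegral Qb M P p) (_ : DscBetaBarIntegral Qb M P p)
      (_ : HasPrincipalDivisors Qb (laurentBaseChange Qb (dscField M (P * p))))
      (hfin : FiniteAlong Qb (dscBetaBar Qb M P p)),
      FundamentalIdentityAlong Qb (dscAlphaBar Qb M P p) hα ∧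
        NormFormulaAlong Qb (dscBetaBar Qb M P p) hfin := by
  have hβJ : IsSepGen Qb (dscBetaBar Qb M P p (dscJBar Qb M P)) :=
    dscff_isSepGen_map (dscBetaBar Qb M P p) h1.transcendental hp
  obtain ⟨hα, hβ, hP, hfin, hFI, hN⟩ :=
    dscff_inputs (dscAlphaBar Qb M P p) (dscBetaBar Qb M P p) (dscJBar Qb M P) h1 hβJ
  exact ⟨hα, hβ, hP, hfin, hFI, hN⟩

/-- `dscHeckeFun` through the generic norm of `FF/Abs.lean`. -/
theorem dscff_heckeFun_eq (M p : ℕ) [NeZero p] (f : dscFieldBar M 1) :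
    dscHeckeFun M 1 p f = dscffNorm (dscAlphaBar Qb M 1 p) (dscBetaBar Qb M 1 p f) := rfl

/-- (FF2) from (FF1). -/
theorem dscff_hecke_class (M : ℕ) (p : Nat.Primes)
    (hin : haveI : NeZero (p : ℕ) := ⟨p.2.ne_zero⟩; DscHeckeInputsAlong Qb M 1 p)
    (D : Divisor.degZero (K := Qb) (F := dscFieldBar M 1))
    (n : ℕ) (f : dscFieldBar M 1) (hf : f ≠ 0)
    (hD : ∀ Q : Place Qb (dscFieldBar M 1),
      (n : ℤ) * (D : Divisor Qb (dscFieldBar M 1)) Q = Q.ord f) :
    haveI : NeZero (p : ℕ) := ⟨p.2.ne_zero⟩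
    ∃ E : Divisor.degZero (K := Qb) (F := dscFieldBar M 1),
      dscHeckeBar M p (Pic0.mk D) = Pic0.mk E ∧
      dscHeckeFun M 1 p f ≠ 0 ∧
      ∀ Q : Place Qb (dscFieldBar M 1),
        (n : ℤ) * (E : Divisor Qb (dscFieldBar M 1)) Q = Q.ord (dscHeckeFun M 1 p f) := by
  haveI : NeZero (p : ℕ) := ⟨p.2.ne_zero⟩
  obtain ⟨hα, hβ, hP, hfin, hFI, hN⟩ := hin
  haveI := hP
  obtain ⟨E, hE, h0, hord⟩ :=
    dscff_class (dscBetaBar Qb M 1 p) (dscAlphaBar Qb M 1 p) hβ hα hFI hfin hN D n f hf hD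
  refine ⟨E, ?_, h0, hord⟩
  rw [dscHeckeBar_apply]
  show dscHeckeAlong Qb M 1 p (Pic0.mk D) = _
  rw [dscHeckeAlong_eq hα hβ hFI hfin hN]
  exact hE

/-- the Hecke operator on functions maps constants to constants (up to divisors). -/
theorem dscff_hecke_const_ord (M p : ℕ) [NeZero p] (c : Qb)
    (Q : Place Qb (dscFieldBar M 1)) :
    Q.ord (dscHeckeFun M 1 p (algebraMap Qb (dscFieldBar M 1) c)) = 0 :=
  dscff_ord_norm_const (dscBetaBar Qb M 1 p) (dscAlphaBar Qb M 1 p) c Q

end Fermat.Agent.DS
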